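import Mathlib
import Fermat.Prelude.Def_GaloisRep_LocalConditions

/-!
# S33, end wiring (helper54): `IsOrdinaryAt` from ONE operator identity

`A` a local ring, `ρ : GaloisRepAdic A`, `P` a valuation subring of `ℚ̄` with decomposition group
`D` and inertia group `I`.

* `exists_basis_range_eq_span` : an idempotent `e ≠ 0, 1` of a free module of rank `2` over a
  local ring has `range e = A ∙ b 0` for a basis `b`.
* `conj_mem_inertiaSubgroupIn'` : `I` is normalised by `D`.
* `ordinaryAt_of_identity` : if some `σ₀ ∈ I` has `det ρ(σ₀) - 1` a unit and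
  `(ρ(σ₀) - det ρ(σ₀)) (ρ(σ) - 1) = 0` for all `σ ∈ I`, then the clause of `IsOrdinaryAt` at `P`
  holds with the line `L = (ρ(σ₀) - 1) V`.
* `isOrdinaryAt_of_identity` : the same for all `P` over `p`, conclusion `ρ.IsOrdinaryAt p`.
* `identity_of_isOrdinaryAt` : conversely the identity holds for every ordinary `ρ` and all
  `σ₀, σ ∈ I` (so nothing is lost).
* `isOrdinaryAt_of_identity_levels` : it suffices to have the identity modulo `𝔪 ^ n V` for all
  `n` (`A` noetherian), i.e. on the finite levels of `ρ`.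
-/

set_option autoImplicit false
set_option linter.style.haveILetI false
set_option linter.unusedSectionVars false

open scoped BigOperators

namespace Fermat.Agent.S33.helper54

section Algebra

variable {A : Type*} [CommRing A] [IsLocalRing A]
  {V : Type*} [AddCommGroup V] [Module A V] [Module.Free A V] [Module.Finite A V]

/-- A nonzero finitely generated projective module over a local ring has positive rank. -/
theorem finrank_pos_of_ne_bot (W : Submodule A V) [Module.Free A W] [Module.Finite A W]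
    (hW : W ≠ ⊥) : 0 < Module.finrank A W := by
  have hnt : Nontrivial W := by
    rw [Submodule.nontrivial_iff_ne_bot]
    exact hW
  exact (Module.finrank_pos_iff_of_free A W).mpr hnt

/-- An idempotent endomorphism `e ≠ 0, 1` of a free module of rank `2` over a local ring:
its range is the line spanned by the first vector of a basis. -/
theorem exists_basis_range_eq_span (hV : Module.finrank A V = 2) (e : Module.End A V)
    (he : e * e = e) (h0 : e ≠ 0) (h1 : e ≠ 1) :
    ∃ b : Module.Basis (Fin 2) A V, LinearMap.range e = A ∙ b 0 := by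
  classical
  have hproj : LinearMap.IsProj (LinearMap.range e) e := by
    refine ⟨fun x => LinearMap.mem_range_self e x, ?_⟩
    rintro x ⟨y, rfl⟩
    change (e * e) y = e y
    rw [he]
  have hcompl : IsCompl (LinearMap.range e) (LinearMap.ker e) := hproj.isCompl
  set W₁ : Submodule A V := LinearMap.range e with hW₁
  set W₂ : Submodule A V := LinearMap.ker e with hW₂
  -- both summands are projective, hence free
  have hp₁ : Module.Projective A W₁ :=
    Module.Projective.of_split W₁.subtype (W₁.projectionOnto W₂ hcompl)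
      (LinearMap.ext fun x => Submodule.projectionOnto_apply_left hcompl x)
  have hp₂ : Module.Projective A W₂ :=
    Module.Projective.of_split W₂.subtype (W₂.projectionOnto W₁ hcompl.symm)
      (LinearMap.ext fun x => Submodule.projectionOnto_apply_left hcompl.symm x)
  haveI : Module.Finite A W₁ :=
    Module.Finite.of_surjective (W₁.projectionOnto W₂ hcompl)
      (Submodule.projectionOnto_surjective hcompl)
  haveI : Module.Finite A W₂ :=
    Module.Finite.of_surjective (W₂.projectionOnto W₁ hcompl.symm)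
      (Submodule.projectionOnto_surjective hcompl.symm)
  haveI : Module.Free A W₁ := Module.free_of_flat_of_isLocalRing
  haveI : Module.Free A W₂ := Module.free_of_flat_of_isLocalRing
  have hne₁ : W₁ ≠ ⊥ := by
    intro h
    apply h0
    ext x
    have : e x ∈ W₁ := LinearMap.mem_range_self e x
    rw [h] at this
    simpa using this
  have hne₂ : W₂ ≠ ⊥ := by
    intro h
    apply h1
    ext x
    have : x - e x ∈ W₂ := by
      rw [hW₂, LinearMap.mem_ker, map_sub]
      change e x - (e * e) x = 0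
      rw [he, sub_self]
    rw [h] at this
    have h' : x - e x = 0 := by simpa using this
    rw [Module.End.one_apply]
    exact (sub_eq_zero.mp h').symm
  have hsum : Module.finrank A W₁ + Module.finrank A W₂ = 2 := by
    rw [← hV, ← Module.finrank_prod]
    exact LinearEquiv.finrank_eq (Submodule.prodEquivOfIsCompl W₁ W₂ hcompl)
  have hr₁ : Module.finrank A W₁ = 1 := by
    have := finrank_pos_of_ne_bot W₁ hne₁
    have := finrank_pos_of_ne_bot W₂ hne₂
    omega
  have hr₂ : Module.finrank A W₂ = 1 := by omega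
  let b₁ : Module.Basis (Fin 1) A W₁ := Module.finBasisOfFinrankEq A W₁ hr₁
  let b₂ : Module.Basis (Fin 1) A W₂ := Module.finBasisOfFinrankEq A W₂ hr₂
  let b₁₂ : Module.Basis (Fin 1 ⊕ Fin 1) A V :=
    (b₁.prod b₂).map (Submodule.prodEquivOfIsCompl W₁ W₂ hcompl)
  let b : Module.Basis (Fin 2) A V := b₁₂.reindex finSumFinEquiv
  have hb0 : b 0 = (b₁ 0 : V) := by
    have h0' : (finSumFinEquiv.symm (0 : Fin 2) : Fin 1 ⊕ Fin 1) = Sum.inl 0 := by
      rw [Equiv.symm_apply_eq]
      rfl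
    simp [b, b₁₂, Module.Basis.reindex_apply, h0']
  refine ⟨b, ?_⟩
  rw [hb0]
  apply le_antisymm
  · intro x hx
    have hx' : (⟨x, hx⟩ : W₁) ∈ Submodule.span A (Set.range b₁) := by
      rw [b₁.span_eq]
      exact Submodule.mem_top
    have hrange : Set.range b₁ = {b₁ 0} := by
      ext y
      constructor
      · rintro ⟨i, rfl⟩
        rw [Subsingleton.elim i 0]
        rfl
      · rintro rfl
        exact ⟨0, rfl⟩
    rw [hrange, Submodule.mem_span_singleton] at hx'
    obtain ⟨a, ha⟩ := hx'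
    rw [Submodule.mem_span_singleton]
    refine ⟨a, ?_⟩
    have := congrArg Subtype.val ha
    simpa using this
  · rw [Submodule.span_singleton_le_iff_mem]
    exact (b₁ 0).2

end Algebra

section Conj

variable {K L : Type*} [Field K] [Field L] [Algebra K L]

/-- the inertia group is normalised by the decomposition group -/
theorem conj_mem_inertiaSubgroupIn' (P : ValuationSubring L) {g σ : L ≃ₐ[K] L}
    (hg : g ∈ P.decompositionSubgroup K) (hσ : σ ∈ P.inertiaSubgroupIn K) :
    g * σ * g⁻¹ ∈ P.inertiaSubgroupIn K := by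
  obtain ⟨s, hs, rfl⟩ := Subgroup.mem_map.mp hσ
  haveI : (P.inertiaSubgroup K).Normal := by
    unfold ValuationSubring.inertiaSubgroup
    exact MonoidHom.normal_ker _
  refine Subgroup.mem_map.mpr ⟨⟨g, hg⟩ * s * ⟨g, hg⟩⁻¹, ?_, rfl⟩
  exact Subgroup.Normal.conj_mem inferInstance s hs ⟨g, hg⟩

/-- the inertia group is contained in the decomposition group -/
theorem inertiaSubgroupIn_le' (P : ValuationSubring L) {σ : L ≃ₐ[K] L}
    (hσ : σ ∈ P.inertiaSubgroupIn K) : σ ∈ P.decompositionSubgroup K := by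
  obtain ⟨s, -, rfl⟩ := Subgroup.mem_map.mp hσ
  exact s.2

end Conj

section Ordinary

variable {A : Type} [CommRing A] [IsLocalRing A]

/-- **The clause of `IsOrdinaryAt` at one place from one operator identity.** -/
theorem ordinaryAt_of_identity (ρ : GaloisRepAdic A)
    (P : ValuationSubring (AlgebraicClosure ℚ))
    (σ₀ : AlgebraicClosure ℚ ≃ₐ[ℚ] AlgebraicClosure ℚ) (hσ₀ : σ₀ ∈ P.inertiaSubgroupIn ℚ)
    (hu : IsUnit (LinearMap.det (ρ.ρ σ₀) - 1))
    (hid : ∀ σ ∈ P.inertiaSubgroupIn ℚ,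
      (ρ.ρ σ₀ - LinearMap.det (ρ.ρ σ₀) • (1 : Module.End A ρ.V)) * (ρ.ρ σ - 1) = 0) :
    ∃ L : Submodule A ρ.V,
      (∃ b : Module.Basis (Fin 2) A ρ.V, L = A ∙ b 0) ∧
      (∀ σ ∈ P.decompositionSubgroup ℚ, ∀ v ∈ L, ρ.ρ σ v ∈ L) ∧
      (∀ σ ∈ P.inertiaSubgroupIn ℚ, ∀ v : ρ.V, ρ.ρ σ v - v ∈ L) := by
  classical
  set c : A := LinearMap.det (ρ.ρ σ₀) with hc
  obtain ⟨u, hu'⟩ := hu
  set N : Module.End A ρ.V := ρ.ρ σ₀ - 1 with hN
  set e : Module.End A ρ.V := ((u⁻¹ : Aˣ) : A) • N with he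
  have hNu : ρ.ρ σ₀ - c • (1 : Module.End A ρ.V) = N - (u : A) • (1 : Module.End A ρ.V) := by
    rw [hN, hu']
    ext v
    simp only [LinearMap.sub_apply, LinearMap.smul_apply, Module.End.one_apply, sub_smul,
      one_smul]
    abel
  -- `N w = u w` for every `w` in the range of `ρ σ - 1`
  have hkey : ∀ σ ∈ P.inertiaSubgroupIn ℚ, ∀ v : ρ.V,
      N (ρ.ρ σ v - v) = (u : A) • (ρ.ρ σ v - v) := by
    intro σ hσ v
    have h := congrArg (fun f : Module.End A ρ.V => f v) (hid σ hσ)
    simp only [hNu] at h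
    have h' : (N - (u : A) • (1 : Module.End A ρ.V)) (ρ.ρ σ v - v) = 0 := by
      simpa [Module.End.mul_apply, LinearMap.sub_apply] using h
    rw [LinearMap.sub_apply, LinearMap.smul_apply, Module.End.one_apply, sub_eq_zero] at h'
    exact h'
  have hNN : ∀ v : ρ.V, N (N v) = (u : A) • N v := by
    intro v
    have := hkey σ₀ hσ₀ v
    simpa [hN, LinearMap.sub_apply] using this
  have hee : e * e = e := by
    ext v
    have h1 : (e * e) v = ((u⁻¹ : Aˣ) : A) • ((u⁻¹ : Aˣ) : A) • N (N v) := by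
      simp only [he, Module.End.mul_apply, LinearMap.smul_apply, map_smul]
    rw [h1, hNN, smul_smul ((u⁻¹ : Aˣ) : A) (u : A), Units.inv_mul, one_smul, he,
      LinearMap.smul_apply]
  have hdetu : IsUnit (LinearMap.det (ρ.ρ σ₀)) := by
    have h1 : ρ.ρ σ₀ * ρ.ρ σ₀⁻¹ = 1 := by rw [← map_mul, mul_inv_cancel, map_one]
    have h2 : LinearMap.det (ρ.ρ σ₀) * LinearMap.det (ρ.ρ σ₀⁻¹) = 1 := by
      rw [← map_mul, h1, map_one]
    exact IsUnit.of_mul_eq_one _ h2
  have hN0 : N ≠ 0 := by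
    intro h
    have h1 : ρ.ρ σ₀ = 1 := by
      rw [hN, sub_eq_zero] at h
      exact h
    have h2 : c = 1 := by rw [hc, h1, map_one]
    have h3 : (u : A) = 0 := by rw [hu', h2, sub_self]
    exact u.ne_zero h3
  have he0 : e ≠ 0 := by
    intro h
    apply hN0
    have : (u : A) • e = N := by
      rw [he, smul_smul, Units.mul_inv, one_smul]
    rw [← this, h, smul_zero]
  have he1 : e ≠ 1 := by
    intro h
    have h1 : N = (u : A) • (1 : Module.End A ρ.V) := by
      have : (u : A) • e = N := by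
        rw [he, smul_smul, Units.mul_inv, one_smul]
      rw [← this, h]
    have h2 : ρ.ρ σ₀ = c • (1 : Module.End A ρ.V) := by
      have h3 : ρ.ρ σ₀ - c • (1 : Module.End A ρ.V) = 0 := by rw [hNu, h1, sub_self]
      exact sub_eq_zero.mp h3
    have h4 : c = c ^ 2 := by
      have := congrArg LinearMap.det h2
      rw [LinearMap.det_smul, map_one, mul_one, ρ.finrank_eq] at this
      exact this
    have h5 : c * (u : A) = 0 := by
      rw [hu']
      linear_combination -h4
    have h6 : c = 0 := by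
      have := congrArg (fun x => x * ((u⁻¹ : Aˣ) : A)) h5
      simpa [mul_assoc] using this
    rw [← hc, h6] at hdetu
    exact not_isUnit_zero hdetu
  obtain ⟨b, hb⟩ := exists_basis_range_eq_span ρ.finrank_eq e hee he0 he1
  -- membership criterion
  have hmem : ∀ w : ρ.V, N w = (u : A) • w → w ∈ LinearMap.range e := by
    intro w hw
    refine ⟨w, ?_⟩
    rw [he, LinearMap.smul_apply, hw, smul_smul, Units.inv_mul, one_smul]
  have hI : ∀ σ ∈ P.inertiaSubgroupIn ℚ, ∀ v : ρ.V, ρ.ρ σ v - v ∈ LinearMap.range e :=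
    fun σ hσ v => hmem _ (hkey σ hσ v)
  refine ⟨LinearMap.range e, ⟨b, hb⟩, ?_, hI⟩
  rintro g hg v ⟨v', rfl⟩
  -- `ρ g (e v') = u⁻¹ • (ρ (g σ₀ g⁻¹) - 1) (ρ g v')`
  have hconj := conj_mem_inertiaSubgroupIn' (K := ℚ) P hg hσ₀
  have h1 : ρ.ρ g (N v') = ρ.ρ (g * σ₀ * g⁻¹) (ρ.ρ g v') - ρ.ρ g v' := by
    have h2 : ρ.ρ (g * σ₀ * g⁻¹) (ρ.ρ g v') = ρ.ρ g (ρ.ρ σ₀ v') := by
      rw [← Module.End.mul_apply, ← map_mul, inv_mul_cancel_right, map_mul,
        Module.End.mul_apply]
    rw [h2, hN, LinearMap.sub_apply, Module.End.one_apply, map_sub]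
  rw [he, LinearMap.smul_apply, map_smul, h1]
  exact Submodule.smul_mem _ _ (hI _ hconj _)

/-- **`IsOrdinaryAt` from the operator identity `(ρ(σ₀) - det ρ(σ₀)) (ρ(σ) - 1) = 0`.** -/
theorem isOrdinaryAt_of_identity (ρ : GaloisRepAdic A) (p : ℕ)
    (h : ∀ P : ValuationSubring (AlgebraicClosure ℚ), P.LiesOverPrime p →
      ∃ σ₀ ∈ P.inertiaSubgroupIn ℚ, IsUnit (LinearMap.det (ρ.ρ σ₀) - 1) ∧
        ∀ σ ∈ P.inertiaSubgroupIn ℚ,
          (ρ.ρ σ₀ - LinearMap.det (ρ.ρ σ₀) • (1 : Module.End A ρ.V)) * (ρ.ρ σ - 1) = 0) :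
    ρ.IsOrdinaryAt p := by
  intro P hP
  obtain ⟨σ₀, hσ₀, hu, hid⟩ := h P hP
  exact ordinaryAt_of_identity ρ P σ₀ hσ₀ hu hid

/-- Conversely, an ordinary representation satisfies the identity for all `σ₀, σ` in inertia. -/
theorem identity_of_isOrdinaryAt (ρ : GaloisRepAdic A) (p : ℕ) (h : ρ.IsOrdinaryAt p)
    (P : ValuationSubring (AlgebraicClosure ℚ)) (hP : P.LiesOverPrime p)
    (σ₀ σ : AlgebraicClosure ℚ ≃ₐ[ℚ] AlgebraicClosure ℚ)
    (hσ₀ : σ₀ ∈ P.inertiaSubgroupIn ℚ) (hσ : σ ∈ P.inertiaSubgroupIn ℚ) :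
    (ρ.ρ σ₀ - LinearMap.det (ρ.ρ σ₀) • (1 : Module.End A ρ.V)) * (ρ.ρ σ - 1) = 0 := by
  classical
  obtain ⟨L, ⟨b, hb⟩, hD, hI⟩ := h P hP
  -- the matrix of `ρ σ₀` in the basis `b` is upper triangular with lower right entry `1`
  have h00 : ρ.ρ σ₀ (b 0) ∈ L :=
    hD σ₀ (inertiaSubgroupIn_le' (K := ℚ) P hσ₀) (b 0)
      (by rw [hb]; exact Submodule.mem_span_singleton_self _)
  have h01 : ρ.ρ σ₀ (b 1) - b 1 ∈ L := hI σ₀ hσ₀ (b 1)
  rw [hb, Submodule.mem_span_singleton] at h00 h01
  obtain ⟨x, hx⟩ := h00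
  obtain ⟨y, hy⟩ := h01
  have hdet : LinearMap.det (ρ.ρ σ₀) = x := by
    rw [← LinearMap.det_toMatrix b, Matrix.det_fin_two]
    have e00 : LinearMap.toMatrix b b (ρ.ρ σ₀) 0 0 = x := by
      rw [LinearMap.toMatrix_apply, ← hx]
      simp
    have e10 : LinearMap.toMatrix b b (ρ.ρ σ₀) 1 0 = 0 := by
      rw [LinearMap.toMatrix_apply, ← hx]
      simp
    have e11 : LinearMap.toMatrix b b (ρ.ρ σ₀) 1 1 = 1 := by
      rw [LinearMap.toMatrix_apply]
      have : ρ.ρ σ₀ (b 1) = y • b 0 + b 1 := by rw [hy]; abel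
      rw [this]
      simp
    rw [e00, e10, e11]
    ring
  ext v
  have hv : ρ.ρ σ v - v ∈ L := hI σ hσ v
  rw [hb, Submodule.mem_span_singleton] at hv
  obtain ⟨a, ha⟩ := hv
  simp only [Module.End.mul_apply, LinearMap.sub_apply, Module.End.one_apply,
    LinearMap.smul_apply, LinearMap.zero_apply]
  rw [← ha, map_smul, ← hx, hdet]
  module

/-- Krull separation: an endomorphism of `ρ.V` whose values lie in `𝔪 ^ n • V` for all `n`
vanishes (`A` noetherian local). -/
theorem end_eq_zero_of_forall_mem (ρ : GaloisRepAdic A) [IsNoetherianRing A]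
    (X : Module.End A ρ.V)
    (h : ∀ (n : ℕ) (v : ρ.V), X v ∈ (IsLocalRing.maximalIdeal A ^ n) • (⊤ : Submodule A ρ.V)) :
    X = 0 := by
  ext v
  have hbot : (⨅ i : ℕ, (IsLocalRing.maximalIdeal A ^ i) • (⊤ : Submodule A ρ.V)) = ⊥ :=
    Ideal.iInf_pow_smul_eq_bot_of_isLocalRing (IsLocalRing.maximalIdeal A)
      (IsLocalRing.maximalIdeal.isMaximal A).ne_top
  have hmem : X v ∈ (⨅ i : ℕ, (IsLocalRing.maximalIdeal A ^ i) • (⊤ : Submodule A ρ.V)) :=
    (Submodule.mem_iInf _).mpr fun n => h n v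
  rw [hbot] at hmem
  simpa using hmem

/-- **`IsOrdinaryAt` from the operator identity at all finite levels `V / 𝔪 ^ n V`.** -/
theorem isOrdinaryAt_of_identity_levels (ρ : GaloisRepAdic A) [IsNoetherianRing A] (p : ℕ)
    (h : ∀ P : ValuationSubring (AlgebraicClosure ℚ), P.LiesOverPrime p →
      ∃ σ₀ ∈ P.inertiaSubgroupIn ℚ, IsUnit (LinearMap.det (ρ.ρ σ₀) - 1) ∧
        ∀ σ ∈ P.inertiaSubgroupIn ℚ, ∀ (n : ℕ) (v : ρ.V),
          ρ.ρ σ₀ (ρ.ρ σ v - v) - LinearMap.det (ρ.ρ σ₀) • (ρ.ρ σ v - v) ∈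
            (IsLocalRing.maximalIdeal A ^ n) • (⊤ : Submodule A ρ.V)) :
    ρ.IsOrdinaryAt p := by
  refine isOrdinaryAt_of_identity ρ p fun P hP => ?_
  obtain ⟨σ₀, hσ₀, hu, hid⟩ := h P hP
  refine ⟨σ₀, hσ₀, hu, fun σ hσ => ?_⟩
  refine end_eq_zero_of_forall_mem ρ _ fun n v => ?_
  have := hid σ hσ n v
  simpa [Module.End.mul_apply, LinearMap.sub_apply] using this

end Ordinary

end Fermat.Agent.S33.helper54
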